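import Fermat.Agent.H99.FF.RootApprox
import Fermat.Agent.H90.FF.ApproxRootExport

/-!
# P-FF row 770 (FF-G7-ROOTAPPROX), helper99: final form

`rootApprox_of_taylor : TaylorRedStatement → RootApproxStatement`, using helper90's landed
`Fermat.Agent.H90.FF.approxRoot` for the Hensel root statement.
-/

set_option autoImplicit false

namespace Fermat.Agent.H99.FF

/-- the corrected root statement of the FF-G7 interface is helper90's theorem -/
theorem rootFixed : Fermat.Agent.H94.FF.RootFixedStatement :=
  Fermat.Agent.H90.FF.approxRoot

/-- **FF-G7-ROOTAPPROX**, with the Taylor lemma as only hypothesis. -/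
theorem rootApprox_of_taylor (hT : Fermat.Agent.H72.FF.TaylorRedStatement) :
    Fermat.Agent.H94.FF.RootApproxStatement :=
  rootApprox hT rootFixed

end Fermat.Agent.H99.FF
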