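import Fermat.Agent.H94.FF.Val
import Fermat.Agent.H26.FF.ApproxCalc

/-!
# P-FF row 770 (FF-G7-ROOTAPPROX), helper99

`rootApprox : TaylorRedStatement → RootFixedStatement → RootApproxStatement`:
the coordinate of a zero of a family `F(s) = ∑ κ_j(s) y_j` whose reduction vanishes simply at `Q`
is approximable.
-/

set_option autoImplicit false
set_option synthInstance.maxHeartbeats 400000
set_option linter.style.haveILetI false
set_option linter.unusedSectionVars false

noncomputable section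

open AlgebraicCurve ModularCurve Fermat.Agent.H18 Fermat.Agent.H27.ESD

namespace Fermat.Agent.H99.FF

open Fermat.Agent.H10.FF Fermat.Agent.H72.FF Fermat.Agent.H94.FF

/-! ### Generic lemmas on values at a place -/

section General

variable {K F : Type*} [Field K] [Field F] [Algebra K F] (P : Place K F)

theorem hasVal_zero_of_ord {R : F} {m : ℤ} (hm : 1 ≤ m) (h : R = 0 ∨ m ≤ P.ord R) :
    HasVal P R 0 :=
  (hasVal_zero_iff P).mpr (h.imp id fun h' => hm.trans h')

theorem ne_zero_of_ord_eq_one {u : F} (hu : P.ord u = 1) : u ≠ 0 := by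
  rintro rfl
  rw [Place.ord_zero] at hu
  exact zero_ne_one hu

theorem hasVal_div_zero_of_ord {R u : F} (hu : P.ord u = 1) {m : ℤ} (hm : 2 ≤ m)
    (h : R = 0 ∨ m ≤ P.ord R) : HasVal P (R / u) 0 := by
  rw [hasVal_zero_iff]
  by_cases hR : R = 0
  · left
    rw [hR, zero_div]
  · right
    have h' : m ≤ P.ord R := h.resolve_left hR
    have hu0 : u ≠ 0 := ne_zero_of_ord_eq_one P hu
    rw [div_eq_mul_inv, P.ord_mul hR (inv_ne_zero hu0), P.ord_inv, hu]
    omega

/-- the value at `P` of a polynomial expression in a function vanishing at `P` is the constant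
term -/
theorem hasVal_polySum {u : F} (hu : HasVal P u 0) (m : ℕ) (a : Fin (m + 1) → K) :
    HasVal P (∑ n : Fin (m + 1), algebraMap K F (a n) * u ^ (n : ℕ)) (a 0) := by
  have h := hasVal_sum (P := P) Finset.univ
    (fun n : Fin (m + 1) => algebraMap K F (a n) * u ^ (n : ℕ))
    (fun n : Fin (m + 1) => a n * (0 : K) ^ (n : ℕ))
    (fun n _ => HasVal.const_mul (a n) (hu.pow (n : ℕ)))
  have e : ∑ n : Fin (m + 1), a n * (0 : K) ^ (n : ℕ) = a 0 := by
    rw [Fin.sum_univ_succ]
    simp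
  rw [e] at h
  exact h

/-- **Simple zero lemma.**  If `E = ∑_{n < m+2} a_n u^n + W` with `ord_P u = ord_P E = 1` and `W`
vanishing to order `≥ 2` at `P`, then `a_0 = 0` and `a_1 ≠ 0`. -/
theorem coeff_of_simple_zero {u E W : F} (hu : P.ord u = 1) (hE : P.ord E = 1) (m : ℕ)
    (a : Fin (m + 2) → K)
    (hexp : E = ∑ n : Fin (m + 2), algebraMap K F (a n) * u ^ (n : ℕ) + W)
    (hW : HasVal P W 0) (hWu : HasVal P (W / u) 0) : a 0 = 0 ∧ a 1 ≠ 0 := by
  have hu0 : u ≠ 0 := ne_zero_of_ord_eq_one P hu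
  have hE0 : E ≠ 0 := ne_zero_of_ord_eq_one P hE
  have huv : HasVal P u 0 := (hasVal_zero_iff P).mpr (Or.inr (by rw [hu]))
  have hEv : HasVal P E 0 := (hasVal_zero_iff P).mpr (Or.inr (by rw [hE]))
  have h1 : HasVal P E (a 0 + 0) := by
    rw [hexp]
    exact (hasVal_polySum P huv (m + 1) a).add hW
  have ha0 : a 0 = 0 := by
    have := h1.unique hEv
    simpa using this
  refine ⟨ha0, ?_⟩
  have hdiv : E / u
      = ∑ i : Fin (m + 1), algebraMap K F (a i.succ) * u ^ (i : ℕ) + W / u := by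
    rw [hexp, add_div, Fin.sum_univ_succ, ha0]
    congr 1
    rw [map_zero, zero_mul, zero_add, Finset.sum_div]
    refine Finset.sum_congr rfl fun i _ => ?_
    rw [Fin.val_succ, pow_succ]
    field_simp
  have h2 : HasVal P (E / u) (a (0 : Fin (m + 1)).succ + 0) := by
    rw [hdiv]
    exact (hasVal_polySum P huv m (fun i => a i.succ)).add hWu
  have hord : P.ord (E / u) = 0 := by
    rw [div_eq_mul_inv, P.ord_mul hE0 (inv_ne_zero hu0), P.ord_inv, hu, hE]
    norm_num
  have hne : E / u ≠ 0 := div_ne_zero hE0 hu0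
  have h3 := h2.val_ne_zero hne hord
  simpa using h3

/-- **Simple zero of a family.**  If `Y_j = ∑_{m < M0+2} c_{j,m} u^m + R_j` with `R_j` vanishing
to order `≥ M0 + 2` at `P`, `ord_P u = 1`, and `∑ κ_j Y_j` has a simple zero at `P`, then
`∑ κ_j c_{j,0} = 0` and `∑ κ_j c_{j,1} ≠ 0`. -/
theorem simple_zero_family {u : F} (hu : P.ord u = 1) (d M0 : ℕ) (κ : Fin d → K)
    (c : Fin d → Fin (M0 + 2) → K) (Y : Fin d → F)
    (hR : ∀ j, Y j - ∑ m : Fin (M0 + 2), algebraMap K F (c j m) * u ^ (m : ℕ) = 0 ∨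
      ((M0 + 2 : ℕ) : ℤ) ≤ P.ord (Y j - ∑ m : Fin (M0 + 2), algebraMap K F (c j m) * u ^ (m : ℕ)))
    (hE : P.ord (∑ j, algebraMap K F (κ j) * Y j) = 1) :
    (∑ j, κ j * c j 0) = 0 ∧ (∑ j, κ j * c j 1) ≠ 0 := by
  have hM2 : (2 : ℤ) ≤ ((M0 + 2 : ℕ) : ℤ) := by push_cast; omega
  have hM1 : (1 : ℤ) ≤ ((M0 + 2 : ℕ) : ℤ) := by push_cast; omega
  have hexp : ∑ j, algebraMap K F (κ j) * Y j
      = ∑ m : Fin (M0 + 2), algebraMap K F (∑ j, κ j * c j m) * u ^ (m : ℕ)
        + ∑ j, algebraMap K F (κ j) *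
            (Y j - ∑ m : Fin (M0 + 2), algebraMap K F (c j m) * u ^ (m : ℕ)) := by
    simp only [map_sum, map_mul, Finset.sum_mul, mul_sub, Finset.mul_sum,
      Finset.sum_sub_distrib]
    rw [Finset.sum_comm]
    have : ∀ j, ∀ m : Fin (M0 + 2),
        algebraMap K F (κ j) * algebraMap K F (c j m) * u ^ (m : ℕ)
          = algebraMap K F (κ j) * (algebraMap K F (c j m) * u ^ (m : ℕ)) := fun j m => by ring
    simp only [this]
    ring
  have hWv : HasVal P (∑ j, algebraMap K F (κ j) *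
      (Y j - ∑ m : Fin (M0 + 2), algebraMap K F (c j m) * u ^ (m : ℕ))) 0 := by
    have h := hasVal_sum (P := P) Finset.univ
      (fun j => algebraMap K F (κ j) *
        (Y j - ∑ m : Fin (M0 + 2), algebraMap K F (c j m) * u ^ (m : ℕ)))
      (fun j => κ j * 0)
      (fun j _ => HasVal.const_mul _ (hasVal_zero_of_ord P hM1 (hR j)))
    simpa using h
  have hWu : HasVal P ((∑ j, algebraMap K F (κ j) *
      (Y j - ∑ m : Fin (M0 + 2), algebraMap K F (c j m) * u ^ (m : ℕ))) / u) 0 := by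
    have h := hasVal_sum (P := P) Finset.univ
      (fun j => algebraMap K F (κ j) *
        ((Y j - ∑ m : Fin (M0 + 2), algebraMap K F (c j m) * u ^ (m : ℕ)) / u))
      (fun j => κ j * 0)
      (fun j _ => HasVal.const_mul _ (hasVal_div_zero_of_ord P hu hM2 (hR j)))
    rw [Finset.sum_div]
    simp only [mul_div_assoc]
    simpa using h
  exact coeff_of_simple_zero P hu hE M0 (fun m => ∑ j, κ j * c j m) hexp hWv hWu

end General

/-- the algebra behind the root equation -/
theorem family_equation {B : Type*} [CommRing B] (d M0 : ℕ) (κ : Fin d → B)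
    (c : Fin d → Fin (M0 + 2) → B) (b e : Fin d → B) (τ e0 lM : B)
    (hb : ∀ j, b j - ∑ m : Fin (M0 + 2), c j m * τ ^ (m : ℕ) = τ ^ (M0 + 2) * e j)
    (hzero : ∑ j, κ j * b j = 0) (he0 : τ ^ M0 = lM * e0) :
    ∑ m : Fin (M0 + 2), (∑ j, κ j * c j m) * τ ^ (m : ℕ)
      = lM * (-(e0 * τ ^ 2 * ∑ j, κ j * e j)) := by
  have hb' : ∀ j, b j = ∑ m : Fin (M0 + 2), c j m * τ ^ (m : ℕ) + τ ^ (M0 + 2) * e j :=
    fun j => by rw [← hb j]; ring
  have h1 : ∑ m : Fin (M0 + 2), (∑ j, κ j * c j m) * τ ^ (m : ℕ)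
      = ∑ j, κ j * b j - τ ^ (M0 + 2) * ∑ j, κ j * e j := by
    simp only [Finset.sum_mul, Finset.mul_sum]
    rw [Finset.sum_comm, ← Finset.sum_sub_distrib]
    refine Finset.sum_congr rfl fun j _ => ?_
    rw [hb' j, mul_add, Finset.mul_sum]
    have : ∀ m : Fin (M0 + 2), κ j * c j m * τ ^ (m : ℕ) = κ j * (c j m * τ ^ (m : ℕ)) :=
      fun m => by ring
    rw [Finset.sum_congr rfl fun m _ => this m]
    ring
  rw [h1, hzero, pow_add, he0]
  ring

/-! ### The theorem -/

section Main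

variable {N : ℕ} {A : ValuationSubring Qb}

/-- the underlying function of a `κ`-combination in the Gauss ring -/
theorem coe_sum_gaussConst_mul {d : ℕ} (κ : Fin d → A) (y : Fin d → gaussRing A N) :
    (((∑ j, gaussConst A N (κ j) * y j : gaussRing A N)) : FLb N)
      = ∑ j, algebraMap Qb (FLb N) (κ j : Qb) * (y j : FLb N) := by
  rw [AddSubmonoidClass.coe_finsetSum]
  rfl

/-- the reduction of a `κ`-combination -/
theorem gaussRed_sum_gaussConst_mul {d : ℕ} (κ : Fin d → A) (y : Fin d → gaussRing A N) :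
    gaussRed A N (∑ j, gaussConst A N (κ j) * y j)
      = ∑ j, algebraMap (kRes A) (Fkb A N) (IsLocalRing.residue A (κ j)) * gaussRed A N (y j) := by
  rw [map_sum]
  refine Finset.sum_congr rfl fun j _ => ?_
  rw [map_mul, gaussRed_gaussConst]

/-- units of `A` have integral inverses in `ℚ̄` -/
theorem inv_mem_of_isUnit {a : A} (hu : IsUnit a) : (a : Qb) ≠ 0 ∧ ((a : Qb))⁻¹ ∈ A := by
  obtain ⟨v, hv⟩ := hu
  have hmul : ((v : A) : Qb) * (((v⁻¹ : Aˣ) : A) : Qb) = 1 := by
    have h2 : ((((v : A) * ((v⁻¹ : Aˣ) : A) : A)) : Qb) = ((1 : A) : Qb) := by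
      rw [v.mul_inv]
    exact h2
  rw [← hv]
  refine ⟨left_ne_zero_of_mul_eq_one hmul, ?_⟩
  rw [inv_eq_of_mul_eq_one_right hmul]
  exact ((v⁻¹ : Aˣ) : A).2

/-- **FF-G7-ROOTAPPROX.** -/
theorem rootApprox (hT : TaylorRedStatement) (hRoot : RootFixedStatement) :
    RootApproxStatement := by
  intro N ℓ A r g hS Q P t ht d y hyU hynp S _ n x hx κ hκ hsimple pt τ hpt hτ hF
  have hℓ := hS.prime
  have hA := hS.liesOver
  have H := hS.rv
  have hxA : ∀ s i, x s i ∈ A := fun s i => ValuationSubring.nonunits_subset (hx s i)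
  -- (1) the coordinate is a nonunit
  have hτnu : ∀ s, τ s ∈ A.nonunits := fun s =>
    Fermat.Agent.H94.FF.IsUnrCoord.value_nonunit H ht (pt s) (hpt s) (τ s) (hτ s)
  have hτA : ∀ s, τ s ∈ A := fun s => ValuationSubring.nonunits_subset (hτnu s)
  refine hRoot ℓ A hℓ hA S n x hx τ hτnu fun M => ?_
  -- (2) a uniform exponent
  obtain ⟨M0, hM0⟩ := Fermat.Agent.H26.FF.exists_pow_eq_prime_pow_mul hℓ hA τ hτnu M
  -- (3) Taylor expansions of order `M0 + 2`
  have hTay := fun j => hT N ℓ A r g hS Q P t ht (y j) (hyU j) (hynp j) (M0 + 2)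
  choose c hcR hcval hcred using hTay
  -- the reduction argument
  have hkey : ∀ s, (∑ j, IsLocalRing.residue A (κ j s) * IsLocalRing.residue A (c j 0)) = 0 ∧
      (∑ j, IsLocalRing.residue A (κ j s) * IsLocalRing.residue A (c j 1)) ≠ 0 := by
    intro s
    have hE := hsimple s
    rw [gaussRed_sum_gaussConst_mul] at hE
    exact simple_zero_family Q ht.simple d M0 (fun j => IsLocalRing.residue A (κ j s))
      (fun j m => IsLocalRing.residue A (c j m)) (fun j => gaussRed A N (y j))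
      (fun j => hcred j) hE
  have hres : ∀ (m : Fin (M0 + 2)) (s : S), IsLocalRing.residue A (∑ j, κ j s * c j m)
      = ∑ j, IsLocalRing.residue A (κ j s) * IsLocalRing.residue A (c j m) := by
    intro m s
    simp only [map_sum, map_mul]
  have hcoe : ∀ (m : Fin (M0 + 2)) (s : S), (((∑ j, κ j s * c j m : A)) : Qb)
      = ∑ j, (κ j s : Qb) * ((c j m : A) : Qb) := by
    intro m s
    rw [AddSubmonoidClass.coe_finsetSum]
    rfl
  refine ⟨M0, fun m s => ∑ j, (κ j s : Qb) * ((c j m : A) : Qb), ?_, ?_, ?_, ?_, ?_⟩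
  · -- approximability of the coefficients
    intro m
    exact Fermat.Agent.H26.FF.isApprox_sum_univ fun j =>
      Fermat.Agent.H26.FF.isApprox_mul hxA (hκ j)
        (Fermat.Agent.H26.FF.isApprox_const (hcR j m))
  · intro m s
    exact sum_mem fun j _ => mul_mem (κ j s).2 (c j m).2
  · -- `φ 0` has values in the maximal ideal
    intro s
    have h0 : IsLocalRing.residue A (∑ j, κ j s * c j 0) = 0 := (hres 0 s).trans (hkey s).1
    have hnu : ¬ IsUnit (∑ j, κ j s * c j 0 : A) := (H.hker _).mp h0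
    show (∑ j, (κ j s : Qb) * ((c j 0 : A) : Qb)) ∈ A.nonunits
    rw [← hcoe 0 s, ValuationSubring.mem_nonunits_iff_exists_mem_maximalIdeal]
    exact ⟨(∑ j, κ j s * c j 0 : A).2, (IsLocalRing.mem_maximalIdeal _).mpr hnu⟩
  · -- `φ 1` has unit values
    intro s
    have h1 : IsLocalRing.residue A (∑ j, κ j s * c j 1) ≠ 0 := by
      rw [hres 1 s]
      exact (hkey s).2
    have hu : IsUnit (∑ j, κ j s * c j 1 : A) := by
      by_contra hnu
      exact h1 ((H.hker _).mpr hnu)
    have := inv_mem_of_isUnit hu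
    rw [hcoe 1 s] at this
    exact this
  · -- the equation
    intro s
    -- values of the `y j` at `pt s`
    have hbex : ∀ j, ∃ b : Qb, HasVal (pt s) (y j : FLb N) b := fun j =>
      exists_hasVal (hS.pkgL.deg_one (pt s)) (hynp j (pt s) (hpt s))
    choose b hb using hbex
    have hval : HasVal (pt s) (∑ j, algebraMap Qb (FLb N) (κ j s : Qb) * (y j : FLb N))
        (∑ j, (κ j s : Qb) * b j) :=
      hasVal_sum Finset.univ _ _ fun j _ => HasVal.const_mul _ (hb j)
    have hF' : HasVal (pt s) (∑ j, algebraMap Qb (FLb N) (κ j s : Qb) * (y j : FLb N)) 0 := by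
      have := hF s
      rw [coe_sum_gaussConst_mul] at this
      exact this
    have hzero : ∑ j, (κ j s : Qb) * b j = 0 := hval.unique hF'
    have hTj : ∀ j, ∃ e ∈ A, b j - ∑ m : Fin (M0 + 2), ((c j m : A) : Qb) * τ s ^ (m : ℕ)
        = τ s ^ (M0 + 2) * e := fun j =>
      hcval j (pt s) (hpt s) (τ s) (b j) (hτ s) (hb j)
    choose e heA he using hTj
    obtain ⟨e0, he0A, he0⟩ := hM0 s
    refine ⟨-(e0 * τ s ^ 2 * ∑ j, (κ j s : Qb) * e j), ?_, ?_⟩
    · refine neg_mem (mul_mem (mul_mem he0A (pow_mem (hτA s) 2)) ?_)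
      exact sum_mem fun j _ => mul_mem (κ j s).2 (heA j)
    · exact family_equation d M0 (fun j => (κ j s : Qb)) (fun j m => ((c j m : A) : Qb)) b e
        (τ s) e0 ((ℓ : Qb) ^ M) he hzero he0

end Main

end Fermat.Agent.H99.FF
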